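import Fermat.Agent.TauValues.Lucas
import Fermat.Agent.Root.SummaryBakerLastHeight
import Fermat.Agent.MultRelations.Height
import Fermat.Agent.BakerExplicit.Applications
import Mathlib.Analysis.SpecialFunctions.Trigonometric.Bounds
import Mathlib.FieldTheory.IntermediateField.Adjoin.Basic

/-!
# The index is bounded by a value

For `t ^ 2 < 4 q` the terms are `(α ^ n - β ^ n) / (α - β)` with `|α| = |β| = √q`; Baker's theorem
linear in the height of `β / α` keeps `(β / α) ^ n` away from `1` by a power of `q` that is small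
against `n`.
-/

set_option autoImplicit false

noncomputable section

namespace FA.TauValues

open BakerLastHeight NumberField Module Complex

/-- The factor of Baker's bound. -/
def bakerFactor : ℕ := (7 * lastHeightConst 1 2) ^ lastHeightKappa 1

/-- A bound for the index in the logarithm of the value. -/
def indexBound (L : ℕ) : ℕ :=
  2 * (2 * L + 5) + 2 * (2 * lastHeightKappa 1) ^ (2 * lastHeightKappa 1) * (4 * bakerFactor) ^ 2

/-- The conjugates of an integral element with negative discriminant. -/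
theorem normSq_root {t q : ℤ} (hd : t ^ 2 < 4 * q) {w : ℂ}
    (hw : w ^ 2 - (t : ℂ) * w + (q : ℂ) = 0) : Complex.normSq w = q := by
  have hre := congrArg Complex.re hw
  have him := congrArg Complex.im hw
  simp only [pow_two, Complex.add_re, Complex.sub_re, Complex.mul_re, Complex.intCast_re,
    Complex.intCast_im, zero_mul, sub_zero, Complex.zero_re] at hre
  simp only [pow_two, Complex.add_im, Complex.sub_im, Complex.mul_im, Complex.intCast_re,
    Complex.intCast_im, zero_mul, add_zero, Complex.zero_im] at him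
  have hd' : (t : ℝ) ^ 2 < 4 * q := by exact_mod_cast hd
  rw [Complex.normSq_apply]
  rcases mul_eq_zero.1 (show w.im * (2 * w.re - t) = 0 by linarith) with h | h
  · rw [h] at hre ⊢
    nlinarith [sq_nonneg (2 * w.re - t)]
  · linear_combination -hre + w.re * h

/-- The terms by the roots. -/
theorem lucasU_mul_sub {t q : ℤ} {α β : ℂ} (hs : α + β = t) (hp : α * β = q) : ∀ n,
    (lucasU t q n : ℂ) * (α - β) = α ^ n - β ^ n
  | 0 => by simp [lucasU]
  | 1 => by simp [lucasU]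
  | n + 2 => by
    have h1 := lucasU_mul_sub hs hp (n + 1)
    have h2 := lucasU_mul_sub hs hp n
    rw [lucasU]
    push_cast
    linear_combination (t : ℂ) * h1 - (q : ℂ) * h2 + (β ^ (n + 1) - α ^ (n + 1)) * hs
      + (α ^ n - β ^ n) * hp

/-- On the unit circle, `w ^ n` is away from `1`. -/
theorem circle_gap {φ : ℝ} (hφ : |φ| ≤ Real.pi) :
    2 / Real.pi * |φ| ≤ ‖Complex.exp ((φ : ℂ) * Complex.I) - 1‖ := by
  rw [mul_comm (φ : ℂ), Complex.norm_exp_I_mul_ofReal_sub_one, Real.norm_eq_abs, abs_mul,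
    abs_two]
  have h := Real.mul_abs_le_abs_sin (x := φ / 2) (by rw [abs_div, abs_two]; linarith)
  rw [abs_div, abs_two] at h
  have he : 2 / Real.pi * (|φ| / 2) * 2 = 2 / Real.pi * |φ| := by ring
  nlinarith

theorem lastHeight_kappa_pos (n : ℕ) : 1 ≤ lastHeightKappa n := by
  have := coreKappa_facts (n + 1)
  rw [lastHeightKappa]
  omega

/-- **Baker's bound for the distance.** -/
theorem roots_gap {t : ℤ} {q : ℕ} (hd : t ^ 2 < 4 * (q : ℤ)) {n : ℕ} (hn : 1 ≤ n)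
    (hne : lucasU t q n ≠ 0) :
    2 / Real.pi * (1 / (2 : ℝ) ^ ((Nat.log 2 q + 1) *
        (lastHeightConst 1 2 * (4 + (Nat.log 2 n + 2) + 1)) ^ lastHeightKappa 1)) *
      Real.sqrt q ^ n ≤ |(lucasU t q n : ℝ)| * (2 * Real.sqrt q) := by
  have hd' : (t : ℝ) ^ 2 < 4 * q := by exact_mod_cast hd
  have hqpos : (0 : ℝ) < q := by nlinarith [sq_nonneg (t : ℝ)]
  obtain ⟨s, hs⟩ : ∃ s : ℝ, s = Real.sqrt (4 * q - (t : ℝ) ^ 2) := ⟨_, rfl⟩
  have hs2 : s ^ 2 = 4 * q - (t : ℝ) ^ 2 := hs ▸ Real.sq_sqrt (by linarith)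
  have hs0 : 0 < s := hs ▸ Real.sqrt_pos.2 (by linarith)
  obtain ⟨α, hα⟩ : ∃ α : ℂ, α = ((t : ℂ) + (s : ℂ) * I) / 2 := ⟨_, rfl⟩
  obtain ⟨β, hβ⟩ : ∃ β : ℂ, β = ((t : ℂ) - (s : ℂ) * I) / 2 := ⟨_, rfl⟩
  have hsum : α + β = t := by rw [hα, hβ]; ring
  have hs2c : (s : ℂ) ^ 2 = 4 * (q : ℂ) - (t : ℂ) ^ 2 := by exact_mod_cast hs2
  have hprod : α * β = ((q : ℤ) : ℂ) := by
    rw [hα, hβ]
    push_cast
    linear_combination (1 / 4 : ℂ) * hs2c - (s : ℂ) ^ 2 / 4 * Complex.I_sq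
  have hroot : α ^ 2 - (t : ℂ) * α + ((q : ℤ) : ℂ) = 0 := by
    linear_combination α * hsum - hprod
  have hαint : IsIntegral ℤ α := by
    refine ⟨Polynomial.X ^ 2 - Polynomial.C t * Polynomial.X + Polynomial.C (q : ℤ),
      by monicity!, ?_⟩
    simp only [Polynomial.eval₂_add, Polynomial.eval₂_sub, Polynomial.eval₂_mul,
      Polynomial.eval₂_X_pow, Polynomial.eval₂_X, Polynomial.eval₂_C]
    simpa using hroot
  have hαQ : IsIntegral ℚ α := hαint.tower_top
  obtain ⟨K, hK⟩ : ∃ K : IntermediateField ℚ ℂ, K = IntermediateField.adjoin ℚ {α} := ⟨_, rfl⟩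
  have : FiniteDimensional ℚ K := hK ▸ IntermediateField.adjoin.finiteDimensional hαQ
  have : NumberField K := ⟨⟩
  have hdeg : finrank ℚ K ≤ 2 := by
    rw [hK, IntermediateField.adjoin.finrank hαQ]
    refine Polynomial.natDegree_le_iff_degree_le.2 ((minpoly.min ℚ α
      (p := Polynomial.X ^ 2 - Polynomial.C (t : ℚ) * Polynomial.X + Polynomial.C ((q : ℤ) : ℚ))
      (by monicity!) (by simpa using hroot)).trans ?_)
    compute_degree!
  obtain ⟨a, ha⟩ : ∃ a : K, (a : ℂ) = α :=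
    ⟨⟨α, hK ▸ IntermediateField.mem_adjoin_simple_self ℚ α⟩, rfl⟩
  have haint : IsIntegral ℤ a :=
    (isIntegral_algHom_iff (K.val.restrictScalars ℤ) Subtype.val_injective).1
      (show IsIntegral ℤ ((a : K) : ℂ) by rw [ha]; exact hαint)
  have harel : a ^ 2 - (t : K) * a + ((q : ℤ) : K) = 0 :=
    Subtype.ext (by push_cast; rw [ha]; exact_mod_cast hroot)
  obtain ⟨A, hA⟩ : ∃ A : 𝓞 K, (A : K) = a := ⟨⟨a, haint⟩, rfl⟩
  obtain ⟨B, hB⟩ : ∃ B : 𝓞 K, B = (t : 𝓞 K) - A := ⟨_, rfl⟩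
  have hBval : (B : K) = (t : K) - a := by rw [hB]; simp [hA]
  have hαne : α ≠ 0 := fun h => by
    rw [h, zero_mul] at hprod
    exact hqpos.ne (by exact_mod_cast hprod)
  have hane : a ≠ 0 := fun h => hαne (by rw [← ha, h]; rfl)
  have hA0 : A ≠ 0 := fun h => hane (by rw [← hA, h]; rfl)
  obtain ⟨H, hH⟩ : ∃ H, H = Nat.log 2 q + 1 := ⟨_, rfl⟩
  rw [← hH]
  have hsqrt : Real.sqrt q ≤ (2 : ℝ) ^ H := by
    have h1 : (q : ℝ) ≤ (2 : ℝ) ^ H := by
      rw [hH]
      exact_mod_cast (Nat.lt_pow_succ_log_self one_lt_two q).le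
    refine le_trans ?_ h1
    rw [Real.sqrt_le_left hqpos.le]
    have : (1 : ℝ) ≤ q := by exact_mod_cast (show 1 ≤ q by exact_mod_cast hqpos)
    nlinarith
  have hconj : ∀ σ : K →+* ℂ,
      ‖σ a‖ = Real.sqrt q ∧ ‖σ ((t : K) - a)‖ = Real.sqrt q := fun σ => by
    have h1 := congrArg σ harel
    simp only [map_add, map_sub, map_mul, map_pow, map_intCast, map_zero] at h1
    have h2 := normSq_root hd h1
    have h3 := normSq_root hd (w := (t : ℂ) - σ a) (by linear_combination h1)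
    constructor
    · rw [Complex.norm_def, h2]; norm_num
    · rw [map_sub, map_intCast, Complex.norm_def, h3]; norm_num
  have hz : Height.logHeight₁ (((t : K) - a) / a) ≤ ((2 * H : ℕ) : ℝ) * Real.log 2 := by
    have h1 := MultRelations.logHeight₁_div_le (h := H) hdeg hA0 (a := B)
      (fun σ => by rw [hBval]; exact (hconj σ).2.le.trans hsqrt)
      (fun σ => by rw [hA]; exact (hconj σ).1.le.trans hsqrt)
    rwa [hBval, hA] at h1
  obtain ⟨θ, hθ⟩ : ∃ θ : ℝ, θ = Complex.arg (β / α) := ⟨_, rfl⟩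
  have hψ : ∀ σ : K →+* ℂ, σ = algebraMap K ℂ → σ (((t : K) - a) / a) = β / α := by
    rintro σ rfl
    rw [map_div₀, map_sub, map_intCast]
    show ((t : ℂ) - (a : ℂ)) / (a : ℂ) = β / α
    rw [ha, show (t : ℂ) - α = β by rw [← hsum]; ring]
  have hnα : ‖α‖ = Real.sqrt q ∧ ‖β‖ = Real.sqrt q := by
    constructor
    · rw [Complex.norm_def, normSq_root hd hroot]; norm_num
    · rw [Complex.norm_def, normSq_root hd (w := β) (by linear_combination β * hsum - hprod)]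
      norm_num
  have hsq0 : 0 < Real.sqrt q := Real.sqrt_pos.2 hqpos
  have hexp : Complex.exp ((θ : ℂ) * I) = β / α := by
    have h1 := Complex.norm_mul_exp_arg_mul_I (β / α)
    rw [norm_div, hnα.1, hnα.2, div_self hsq0.ne', Complex.ofReal_one, one_mul] at h1
    rw [hθ, h1]
  obtain ⟨k, hk⟩ : ∃ k : ℤ, k = round ((n : ℝ) * θ / (2 * Real.pi)) := ⟨_, rfl⟩
  obtain ⟨φ, hφ⟩ : ∃ φ : ℝ, φ = (n : ℝ) * θ - 2 * (k : ℝ) * Real.pi := ⟨_, rfl⟩
  have hpi := Real.pi_pos
  have hround : |(n : ℝ) * θ / (2 * Real.pi) - k| ≤ 1 / 2 := hk ▸ abs_sub_round _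
  have hφle : |φ| ≤ Real.pi := by
    rw [show φ = 2 * Real.pi * ((n : ℝ) * θ / (2 * Real.pi) - k) by rw [hφ]; field_simp,
      abs_mul, abs_of_pos (by positivity : (0 : ℝ) < 2 * Real.pi)]
    nlinarith
  have hk2 : (-2 * k).natAbs ≤ 2 ^ (Nat.log 2 n + 2) := by
    have h1 : |(n : ℝ) * θ / (2 * Real.pi)| ≤ (n : ℝ) / 2 := by
      rw [abs_div, abs_of_pos (by positivity : (0 : ℝ) < 2 * Real.pi), div_le_iff₀ (by positivity),
        abs_mul, Nat.abs_cast]
      have := hθ ▸ Complex.abs_arg_le_pi (β / α)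
      nlinarith
    have h2 : |((-2 * k : ℤ) : ℝ)| ≤ ((2 * n : ℕ) : ℝ) := by
      have : (1 : ℝ) ≤ n := by exact_mod_cast hn
      rw [abs_le] at h1 hround ⊢
      push_cast
      constructor <;> linarith [h1.1, h1.2, hround.1, hround.2]
    have h3 : (-2 * k).natAbs ≤ 2 * n := by
      rw [← Int.cast_abs, Int.abs_eq_natAbs, Int.cast_natCast] at h2
      exact_mod_cast h2
    have h4 := Nat.lt_pow_succ_log_self one_lt_two n
    rw [pow_succ]
    omega
  have hform : ((-2 * k : ℤ) : ℂ) * ((Real.pi : ℂ) * I) + ((n : ℤ) : ℂ) * ((θ : ℂ) * I) =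
      (φ : ℂ) * I := by
    rw [hφ]; push_cast; ring
  have hne' : (φ : ℂ) * I ≠ 0 := fun h0 => hne (by
    have h1 : (β / α) ^ n = 1 := by
      rw [← hexp, ← Complex.exp_nat_mul, ← Complex.exp_zero, ← h0, hφ,
        Complex.exp_eq_exp_iff_exists_int]
      exact ⟨k, by push_cast; ring⟩
    have h2 := lucasU_mul_sub hsum hprod n
    rw [show β ^ n = α ^ n by
      rw [div_pow, div_eq_one_iff_eq (pow_ne_zero _ hαne)] at h1; exact h1, sub_self,
      mul_eq_zero] at h2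
    refine Int.cast_eq_zero.1 (h2.resolve_right fun h3 => ?_)
    have h4 : α - β = (s : ℂ) * I := by rw [hα, hβ]; ring
    rw [h4] at h3
    simp [hs0.ne'] at h3)
  have key := baker_last_height (K := K) (d := 2) hdeg (algebraMap K ℂ) (n := 1) (h := 4)
    (m := Nat.log 2 n + 2) (R := H) (by omega) (α := fun _ => (-1 : K))
    (α₀ := ((t : K) - a) / a) (fun _ => by simp [Height.logHeight₁_neg]) ?_
    (l := fun _ => (Real.pi : ℂ) * I) (l₀ := (θ : ℂ) * I) (fun _ => by simp [Complex.exp_pi_mul_I])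
    (hexp.trans (hψ _ rfl).symm) (fun _ => ?_) ?_ (b := fun _ => -2 * k) (b₀ := (n : ℤ))
    (fun _ => hk2) ?_ (by exact_mod_cast (show n ≠ 0 by omega))
    (by rw [Fin.sum_univ_one, hform]; exact hne')
  · simp only [Fin.sum_univ_one, hform, norm_mul, Complex.norm_I, mul_one,
      Complex.norm_real, Real.norm_eq_abs] at key
    revert key
    generalize H * (lastHeightConst 1 2 * (4 + (Nat.log 2 n + 2) + 1)) ^ lastHeightKappa 1 = E
    intro key
    have hgap := (mul_le_mul_of_nonneg_left key (by positivity : (0 : ℝ) ≤ 2 / Real.pi)).trans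
      (circle_gap hφle)
    have h1 : Complex.exp ((φ : ℂ) * I) = (β / α) ^ n := by
      rw [← hexp, ← Complex.exp_nat_mul, Complex.exp_eq_exp_iff_exists_int]
      exact ⟨-k, by rw [hφ]; push_cast; ring⟩
    rw [h1] at hgap
    have h2 := congrArg (fun w : ℂ => ‖w‖) (lucasU_mul_sub hsum hprod n)
    simp only [norm_mul, Complex.norm_intCast] at h2
    rw [norm_sub_rev (α ^ n) (β ^ n), show β ^ n - α ^ n = α ^ n * ((β / α) ^ n - 1) by
      rw [div_pow, mul_sub, mul_div_cancel₀ _ (pow_ne_zero _ hαne), mul_one], norm_mul, norm_pow,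
      hnα.1] at h2
    calc _ ≤ ‖(β / α) ^ n - 1‖ * Real.sqrt q ^ n :=
          mul_le_mul_of_nonneg_right hgap (by positivity)
      _ = |(lucasU t q n : ℝ)| * ‖α - β‖ := by rw [mul_comm]; exact h2.symm
      _ ≤ _ := by
          refine mul_le_mul_of_nonneg_left ((norm_sub_le _ _).trans ?_) (abs_nonneg _)
          rw [hnα.1, hnα.2]; linarith
  · refine hz.trans ?_
    have : Real.log 2 ≤ 1 := by linarith [Real.log_two_lt_d9]
    push_cast
    nlinarith [show (0 : ℝ) ≤ H from Nat.cast_nonneg _]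
  · simp only [norm_mul, Complex.norm_I, mul_one, Complex.norm_real, Real.norm_eq_abs,
      abs_of_pos hpi]
    exact Real.pi_le_four.trans (by norm_num)
  · simp only [norm_mul, Complex.norm_I, mul_one, Complex.norm_real, Real.norm_eq_abs]
    have h1 := hθ ▸ Complex.abs_arg_le_pi (β / α)
    have h2 : (4 : ℝ) ≤ ((4 * H : ℕ) : ℝ) := by exact_mod_cast (show 4 ≤ 4 * H by omega)
    exact h1.trans (Real.pi_le_four.trans h2)
  · rw [Int.natAbs_natCast]
    have h4 := Nat.lt_pow_succ_log_self one_lt_two n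
    rw [pow_succ]
    omega

theorem index_arith {n L κ C q : ℕ} (hκ : 1 ≤ κ) (hq : 2 ≤ q) {v : ℝ}
    (hv : |v| ≤ (2 : ℝ) ^ L) (hn : 1 ≤ n)
    (h : 2 / Real.pi * (1 / (2 : ℝ) ^ ((Nat.log 2 q + 1) *
      (C * (4 + (Nat.log 2 n + 2) + 1)) ^ κ)) * Real.sqrt q ^ n ≤ |v| * (2 * Real.sqrt q)) :
    n ≤ 2 * (2 * L + 5) + 2 * (2 * κ) ^ (2 * κ) * (4 * (7 * C) ^ κ) ^ 2 := by
  obtain ⟨s, hs⟩ : ∃ s : ℝ, s = Real.sqrt q := ⟨_, rfl⟩
  obtain ⟨P, hP⟩ : ∃ P, P = (C * (4 + (Nat.log 2 n + 2) + 1)) ^ κ := ⟨_, rfl⟩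
  obtain ⟨H, hH⟩ : ∃ H, H = Nat.log 2 q := ⟨_, rfl⟩
  rw [← hs, ← hP, ← hH] at h
  have hH1 : 1 ≤ H := hH ▸ Nat.le_log_of_pow_le one_lt_two hq
  have hqpos : (0 : ℝ) < q := by exact_mod_cast (show 0 < q by omega)
  have hs0 : 0 < s := hs ▸ Real.sqrt_pos.2 hqpos
  have hs2 : s ^ 2 = q := hs ▸ Real.sq_sqrt hqpos.le
  obtain ⟨j, rfl⟩ : ∃ j, n = j + 1 := ⟨n - 1, by omega⟩
  have hpi4 := Real.pi_le_four
  have hpi := Real.pi_pos
  have h1 : s ^ j ≤ (2 : ℝ) ^ ((H + 1) * P + L + 2) := by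
    rw [pow_succ, ← mul_assoc, ← mul_assoc] at h
    have h2 := (le_of_mul_le_mul_right h hs0).trans (mul_le_mul_of_nonneg_right hv zero_le_two)
    rw [pow_add, pow_add]
    rw [div_mul_div_comm, mul_one, div_mul_eq_mul_div, div_le_iff₀ (by positivity)] at h2
    have h3 : (0 : ℝ) ≤ (2 : ℝ) ^ L * (2 : ℝ) ^ ((H + 1) * P) := by positivity
    nlinarith [mul_le_mul_of_nonneg_left hpi4 h3]
  have h2 : 2 ^ (H * j) ≤ 2 ^ (2 * ((H + 1) * P + L + 2)) := by
    refine Nat.cast_le (α := ℝ).1 ?_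
    push_cast
    calc (2 : ℝ) ^ (H * j) ≤ (s ^ 2) ^ j := by
          rw [pow_mul, hs2]
          refine pow_le_pow_left₀ (by positivity) ?_ j
          exact_mod_cast hH ▸ Nat.pow_log_le_self 2 (by omega : q ≠ 0)
      _ = (s ^ j) ^ 2 := by rw [← pow_mul, ← pow_mul, mul_comm]
      _ ≤ ((2 : ℝ) ^ ((H + 1) * P + L + 2)) ^ 2 := pow_le_pow_left₀ (pow_nonneg hs0.le j) h1 2
      _ = _ := by rw [← pow_mul, mul_comm]
  have h3 := (Nat.pow_le_pow_iff_right one_lt_two).1 h2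
  have hj : j ≤ 2 * L + 4 + 4 * P := by
    have h4 : (H + 1) * P ≤ 2 * (H * P) := by nlinarith
    have h5 : H * j ≤ H * (2 * L + 4 + 4 * P) := by nlinarith
    exact Nat.le_of_mul_le_mul_left h5 (by omega)
  refine BakerExplicit.le_of_le_add_mul_log_pow hκ ?_
  have hP7 : P ≤ (7 * C) ^ κ * (Nat.log 2 (j + 1) + 1) ^ κ := by
    rw [hP, ← mul_pow]
    exact Nat.pow_le_pow_left (by nlinarith) κ
  rw [mul_assoc 4]
  omega

/-- **The index from the value.** -/
theorem index_le {t : ℤ} {q n : ℕ} (hq : 2 ≤ q) (hne : lucasU t q n ≠ 0) {L : ℕ}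
    (hL : (lucasU t q n).natAbs ≤ 2 ^ L) : n ≤ indexBound L := by
  rcases Nat.eq_zero_or_pos n with rfl | hn
  · exact Nat.zero_le _
  rcases lt_or_ge (t ^ 2) (4 * (q : ℤ)) with hd | hd
  · have hv : |(lucasU t q n : ℝ)| ≤ (2 : ℝ) ^ L := by
      rw [← Int.cast_abs, Int.abs_eq_natAbs, Int.cast_natCast]
      exact_mod_cast hL
    refine (index_arith (lastHeight_kappa_pos 1) hq hv hn (roots_gap hd hn hne)).trans_eq ?_
    rw [indexBound, bakerFactor]
  · obtain ⟨j, rfl⟩ : ∃ j, n = j + 1 := ⟨n - 1, by omega⟩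
    have h1 := pow_le_of_real (Int.natCast_nonneg q) hd j
    rw [← Int.natAbs_sq] at h1
    have h2 : q ^ j ≤ (lucasU t q (j + 1)).natAbs ^ 2 := by exact_mod_cast h1
    have h3 : 2 ^ j ≤ 2 ^ (2 * L) := by
      refine (Nat.pow_le_pow_left hq j).trans (h2.trans ?_)
      rw [mul_comm, pow_mul]
      exact Nat.pow_le_pow_left hL 2
    have h4 := (Nat.pow_le_pow_iff_right one_lt_two).1 h3
    refine le_trans ?_ (Nat.le_add_right _ _)
    omega

end FA.TauValues

end
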