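import Fermat.Agent.TauValues.Lucas
import Fermat.Agent.BakerExplicit.ThueMahlerEffective
import Mathlib.Analysis.SpecialFunctions.Trigonometric.Basic

/-!
# The odd terms as binary forms in `t ^ 2` and `q`

`u (2 r + 1) = F r (t ^ 2, q)`, and `F r (4 cos ^ 2 θ, 1) sin θ = sin ((2 r + 1) θ)`, so `F r` has
`r` different linear factors and Thue–Mahler bounds `q` for `r ≥ 3`.
-/

set_option autoImplicit false

noncomputable section

namespace FA.TauValues

open Polynomial BakerExplicit.EffectiveThueMahler BakerExplicit.EffectiveSUnits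

/-- `F r (X, 1)`. -/
def formPoly : ℕ → ℤ[X]
  | 0 => 1
  | 1 => X - C 1
  | r + 2 => (X - C 2) * formPoly (r + 1) - formPoly r

theorem formPoly_shape : ∀ r, (formPoly r).natDegree ≤ r ∧ (formPoly r).coeff r = 1
  | 0 => by simp [formPoly]
  | 1 => ⟨by rw [formPoly, natDegree_X_sub_C], by simp [formPoly, coeff_one]⟩
  | r + 2 => by
    obtain ⟨h1, h2⟩ := formPoly_shape (r + 1)
    obtain ⟨h3, -⟩ := formPoly_shape r
    rw [formPoly]
    refine ⟨(natDegree_sub_le _ _).trans (max_le (natDegree_mul_le.trans ?_) (by omega)), ?_⟩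
    · rw [natDegree_X_sub_C]; omega
    · rw [coeff_sub, coeff_eq_zero_of_natDegree_lt (show (formPoly r).natDegree < r + 2 by omega),
        sub_mul, coeff_sub, coeff_X_mul, coeff_C_mul,
        coeff_eq_zero_of_natDegree_lt (show (formPoly (r + 1)).natDegree < r + 2 by omega), h2]
      ring

theorem formPoly_natDegree (r : ℕ) : (formPoly r).natDegree = r :=
  natDegree_eq_of_le_of_coeff_ne_zero (formPoly_shape r).1
    (by rw [(formPoly_shape r).2]; exact one_ne_zero)

theorem formPoly_coeff_le : ∀ r i, ((formPoly r).coeff i).natAbs ≤ 4 ^ r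
  | 0, i => by simp only [formPoly, coeff_one]; split_ifs <;> simp
  | 1, i => by
    simp only [formPoly, coeff_sub, coeff_X, coeff_C]
    split_ifs <;> omega
  | r + 2, i => by
    rw [formPoly, coeff_sub, sub_mul, coeff_sub, coeff_C_mul]
    have h1 := formPoly_coeff_le (r + 1) i
    have h2 := formPoly_coeff_le r i
    have h3 : ((X * formPoly (r + 1)).coeff i).natAbs ≤ 4 ^ (r + 1) := by
      rcases i with _ | i
      · simp
      · rw [coeff_X_mul]; exact formPoly_coeff_le (r + 1) i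
    simp only [pow_succ] at h1 h3 ⊢
    omega

/-- The value of the form. -/
theorem binaryValue_formPoly (t : ℤ) {q : ℤ} (hq : q ≠ 0) (r : ℕ) :
    binaryValue (formPoly r) r (t ^ 2) q = lucasU t q (2 * r + 1) := by
  have hq' : (q : ℚ) ≠ 0 := Int.cast_ne_zero.2 hq
  obtain ⟨w, hw⟩ : ∃ w : ℚ, w = (t : ℚ) ^ 2 / q := ⟨_, rfl⟩
  have hrec : ∀ r, (lucasU t q (2 * r + 1) : ℚ) =
      (q : ℚ) ^ r * ((formPoly r).map (Int.castRingHom ℚ)).eval w ∧
      (lucasU t q (2 * r + 3) : ℚ) =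
        (q : ℚ) ^ (r + 1) * ((formPoly (r + 1)).map (Int.castRingHom ℚ)).eval w := fun r => by
    induction r with
    | zero =>
      refine ⟨by simp [lucasU, formPoly], ?_⟩
      simp [lucasU, formPoly, hw]
      field_simp
    | succ r ih =>
      obtain ⟨h1, h2⟩ := ih
      refine ⟨h2, ?_⟩
      rw [show 2 * (r + 1) + 3 = (2 * r + 1) + 4 by ring, lucasU_double,
        show 2 * r + 1 + 2 = 2 * r + 3 by ring, formPoly]
      push_cast
      rw [h1, h2, hw]
      simp only [Polynomial.map_sub, Polynomial.map_mul, map_X, eval_sub, eval_mul, eval_X,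
        eq_intCast, Int.cast_ofNat, Polynomial.map_ofNat, eval_ofNat]
      field_simp
      ring
  have h1 : ((binaryValue (formPoly r) r (t ^ 2) q : ℤ) : ℚ) =
      (q : ℚ) ^ r * ((formPoly r).map (Int.castRingHom ℚ)).eval w := by
    rw [eval_eq_sum_range' (n := r + 1) (Nat.lt_succ_of_le
      (natDegree_map_le.trans (formPoly_shape r).1)), Finset.mul_sum, binaryValue, Int.cast_sum]
    refine Finset.sum_congr rfl fun i hi => ?_
    rw [Finset.mem_range] at hi
    rw [coeff_map, eq_intCast, hw, div_pow,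
      show (q : ℚ) ^ r = (q : ℚ) ^ (r - i) * (q : ℚ) ^ i by rw [← pow_add]; congr 1; omega]
    push_cast
    field_simp
  exact Int.cast_injective (α := ℚ) (h1.trans (hrec r).1.symm)

/-- The trigonometric form. -/
theorem formPoly_cos (θ : ℝ) (r : ℕ) :
    Real.sin θ * ((formPoly r).map (Int.castRingHom ℝ)).eval (4 * Real.cos θ ^ 2) =
      Real.sin ((2 * r + 1 : ℕ) * θ) := by
  induction r using Nat.twoStepInduction with
  | zero => simp [formPoly]
  | one =>
    simp [formPoly]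
    rw [Real.sin_three_mul]
    have := Real.sin_sq_add_cos_sq θ
    linear_combination (4 * Real.sin θ) * this
  | more r h1 h2 =>
    simp only [formPoly, Polynomial.map_sub, Polynomial.map_mul, map_X, eval_sub, eval_mul,
      eval_X, eq_intCast, Int.cast_ofNat, Polynomial.map_ofNat, eval_ofNat]
    rw [mul_sub, mul_left_comm, h1, h2]
    obtain ⟨φ, hφ⟩ : ∃ φ, φ = ((2 * r + 1 + 2 : ℕ) : ℝ) * θ := ⟨_, rfl⟩
    rw [show ((2 * (r + 1 + 1) + 1 : ℕ) : ℝ) * θ = φ + 2 * θ by rw [hφ]; push_cast; ring,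
      show ((2 * r + 1 : ℕ) : ℝ) * θ = φ - 2 * θ by rw [hφ]; push_cast; ring,
      show ((2 * (r + 1) + 1 : ℕ) : ℝ) * θ = φ by rw [hφ]; push_cast; ring, Real.sin_add,
      Real.sin_sub, Real.cos_two_mul]
    ring

theorem three_le_card_roots {r : ℕ} (hr : 3 ≤ r) :
    3 ≤ ((formPoly r).map (Int.castRingHom ℂ)).roots.toFinset.card := by
  classical
  obtain ⟨θ, hθ⟩ : ∃ θ : Fin 3 → ℝ,
      ∀ k, θ k = ((k : ℕ) + 1 : ℕ) * Real.pi / (2 * r + 1 : ℕ) := ⟨_, fun _ => rfl⟩
  have hr0 : (0 : ℝ) < ((2 * r + 1 : ℕ) : ℝ) := Nat.cast_pos.2 (by omega)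
  have hrange : ∀ k, 0 < θ k ∧ θ k < Real.pi / 2 := fun k => by
    rw [hθ]
    refine ⟨by positivity, ?_⟩
    have hk : ((2 * ((k : ℕ) + 1) : ℕ) : ℝ) < ((2 * r + 1 : ℕ) : ℝ) :=
      Nat.cast_lt.2 (by have := k.isLt; omega)
    rw [Nat.cast_mul, Nat.cast_ofNat] at hk
    rw [div_lt_div_iff₀ hr0 two_pos]
    nlinarith [Real.pi_pos]
  have hroot : ∀ k, ((formPoly r).map (Int.castRingHom ℝ)).eval (4 * Real.cos (θ k) ^ 2) = 0 :=
    fun k => by
      have h1 := formPoly_cos (θ k) r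
      rw [show ((2 * r + 1 : ℕ) : ℝ) * θ k = (((k : ℕ) + 1 : ℕ) : ℝ) * Real.pi by
        rw [hθ]; field_simp, Real.sin_nat_mul_pi] at h1
      exact (mul_eq_zero.1 h1).resolve_left (Real.sin_pos_of_pos_of_lt_pi (hrange k).1
        (by linarith [(hrange k).2, Real.pi_pos])).ne'
  have hinj : Function.Injective fun k => ((4 * Real.cos (θ k) ^ 2 : ℝ) : ℂ) := fun a b he => by
    have h1 : Real.cos (θ a) ^ 2 = Real.cos (θ b) ^ 2 := by
      have := Complex.ofReal_injective he
      linarith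
    have hca : 0 ≤ Real.cos (θ a) := (Real.cos_pos_of_mem_Ioo
      ⟨by linarith [(hrange a).1, Real.pi_pos], (hrange a).2⟩).le
    have hcb : 0 ≤ Real.cos (θ b) := (Real.cos_pos_of_mem_Ioo
      ⟨by linarith [(hrange b).1, Real.pi_pos], (hrange b).2⟩).le
    have h2 := Real.injOn_cos ⟨(hrange a).1.le, by linarith [(hrange a).2, Real.pi_pos]⟩
      ⟨(hrange b).1.le, by linarith [(hrange b).2, Real.pi_pos]⟩
      ((pow_left_inj₀ hca hcb two_ne_zero).1 h1)
    rw [hθ, hθ, div_left_inj' hr0.ne', mul_left_inj' Real.pi_ne_zero, Nat.cast_inj] at h2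
    exact Fin.ext (by omega)
  calc 3 = (Finset.univ.image fun k => ((4 * Real.cos (θ k) ^ 2 : ℝ) : ℂ)).card := by
        rw [Finset.card_image_of_injective _ hinj, Finset.card_univ, Fintype.card_fin]
    _ ≤ _ := by
      refine Finset.card_le_card fun x hx => ?_
      rw [Finset.mem_image] at hx
      obtain ⟨k, -, rfl⟩ := hx
      have hne : (formPoly r).map (Int.castRingHom ℂ) ≠ 0 :=
        (Polynomial.map_ne_zero_iff Int.cast_injective).2 fun h0 => by
          have := formPoly_natDegree r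
          simp [h0] at this
          omega
      rw [Multiset.mem_toFinset, mem_roots hne, IsRoot,
        show Int.castRingHom ℂ = Complex.ofRealHom.comp (Int.castRingHom ℝ) from
          RingHom.ext_int _ _, ← Polynomial.map_map]
      have h2 := eval_map_apply (p := (formPoly r).map (Int.castRingHom ℝ))
        (f := Complex.ofRealHom) (4 * Real.cos (θ k) ^ 2)
      rw [hroot, map_zero] at h2
      exact h2

/-- **An odd term bounds the norm.** -/
theorem norm_le_of_form {t q : ℤ} {r A : ℕ} (hr : 3 ≤ r) (hq : 1 ≤ q)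
    (hne : lucasU t q (2 * r + 1) ≠ 0) (hA : |lucasU t q (2 * r + 1)| ≤ (A : ℤ)) :
    q ≤ ((A * 2 ^ thueMahlerBound r (2 * r) A : ℕ) : ℤ) := by
  rw [← binaryValue_formPoly t (show q ≠ 0 by omega)] at hne hA
  obtain ⟨d, hd⟩ : ∃ d, d = Int.gcd (t ^ 2) q := ⟨_, rfl⟩
  have hd0 : 0 < d := hd ▸ Int.gcd_pos_of_ne_zero_right _ (by omega)
  obtain ⟨x, hx⟩ : (d : ℤ) ∣ t ^ 2 := hd ▸ Int.gcd_dvd_left _ _
  obtain ⟨y, hy⟩ : (d : ℤ) ∣ q := hd ▸ Int.gcd_dvd_right _ _
  have hcop : IsCoprime x y := by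
    rw [Int.isCoprime_iff_gcd_eq_one]
    have h1 : d = d * Int.gcd x y := by
      conv_lhs => rw [hd, hx, hy, Int.gcd_mul_left, Int.natAbs_natCast]
    exact (Nat.eq_of_mul_eq_mul_left hd0 ((mul_one d).trans h1)).symm
  have hval : binaryValue (formPoly r) r (t ^ 2) q =
      (d : ℤ) ^ r * binaryValue (formPoly r) r x y := by
    rw [hx, hy, binaryValue, binaryValue, Finset.mul_sum]
    refine Finset.sum_congr rfl fun i hi => ?_
    rw [Finset.mem_range] at hi
    rw [mul_pow, mul_pow, show (d : ℤ) ^ r = (d : ℤ) ^ i * (d : ℤ) ^ (r - i) by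
      rw [← pow_add]; congr 1; omega]
    ring
  rw [hval] at hne hA
  obtain ⟨v, hv⟩ : ∃ v, v = binaryValue (formPoly r) r x y := ⟨_, rfl⟩
  rw [← hv] at hne hA
  have hv0 : v ≠ 0 := right_ne_zero_of_mul hne
  have hprod : d ^ r * v.natAbs ≤ A := by
    rw [abs_mul, abs_pow, Nat.abs_cast, Int.abs_eq_natAbs] at hA
    exact_mod_cast hA
  have hdA : d ≤ A := ((Nat.le_self_pow (by omega) d).trans
    (Nat.le_mul_of_pos_right _ (Int.natAbs_pos.2 hv0))).trans hprod
  have hvA : v.natAbs ≤ A :=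
    (Nat.le_mul_of_pos_left _ (pow_pos hd0 r)).trans hprod
  obtain ⟨-, hy'⟩ := thueMahler_bound (f := formPoly r) (N := r) (n := r) (k := 2 * r) (g := A)
    (formPoly_shape r).1 (formPoly_shape r).1
    (fun i => (formPoly_coeff_le r i).trans_eq (by rw [pow_mul]; norm_num))
    (le_add_right (three_le_card_roots hr)) hcop (hv ▸ hv0)
    (hv ▸ Smooth.of_le (Int.natAbs_ne_zero.2 hv0) (hvA.trans Nat.lt_two_pow_self.le))
  obtain ⟨B, hB⟩ : ∃ B, B = 2 ^ thueMahlerBound r (2 * r) A := ⟨_, rfl⟩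
  rw [← hB] at hy' ⊢
  have hyb : y ≤ (B : ℤ) := Int.le_natAbs.trans (Int.ofNat_le.2 hy')
  rw [hy, Nat.cast_mul]
  clear hB hy'
  exact mul_le_mul (Int.ofNat_le.2 hdA) hyb (by nlinarith) (by positivity)

end FA.TauValues

end
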