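import Mathlib.Analysis.SpecialFunctions.Pow.Real
import Mathlib.Tactic.LinearCombination

/-!
# The Lucas sequence of a trace `t` and a norm `q`

Its bounds for `4 q ≤ t ^ 2`, and for a fixed trace and growing norm.
-/

set_option autoImplicit false

noncomputable section

namespace FA.TauValues

/-- `u 0 = 0`, `u 1 = 1`, `u (n + 2) = t u (n + 1) - q u n`. -/
def lucasU (t q : ℤ) : ℕ → ℤ
  | 0 => 0
  | 1 => 1
  | n + 2 => t * lucasU t q (n + 1) - q * lucasU t q n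

/-- The error of the two leading approximations in the norm. -/
def tailBound (s : ℕ) : ℕ → ℕ
  | 0 => 0
  | k + 1 => (s + 1) * (s ^ 2 * (k + 1) + (s + 1) * tailBound s k)

theorem lucasU_double (t q : ℤ) (n : ℕ) :
    lucasU t q (n + 4) = (t ^ 2 - 2 * q) * lucasU t q (n + 2) - q ^ 2 * lucasU t q n := by
  simp only [lucasU]
  ring

theorem trace_dvd (t q : ℤ) : ∀ k, t ∣ lucasU t q (2 * k)
  | 0 => dvd_zero t
  | k + 1 => by
    rw [show 2 * (k + 1) = 2 * k + 2 by ring, lucasU]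
    exact dvd_sub (dvd_mul_right _ _) (dvd_mul_of_dvd_right (trace_dvd t q k) _)

/-- With real roots the sequence grows. -/
theorem pow_le_of_real {t q : ℤ} (hq : 0 ≤ q) (h : 4 * q ≤ t ^ 2) (j : ℕ) :
    q ^ j ≤ lucasU t q (j + 1) ^ 2 := by
  obtain ⟨s, hs⟩ : ∃ s : ℝ, s = Real.sqrt q := ⟨_, rfl⟩
  have hq0 : (0 : ℝ) ≤ q := by exact_mod_cast hq
  have hs0 : 0 ≤ s := hs ▸ Real.sqrt_nonneg _
  have hs2 : s ^ 2 = q := hs ▸ Real.sq_sqrt hq0
  have ht : 2 * s ≤ |(t : ℝ)| := by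
    have h' : (4 : ℝ) * q ≤ (t : ℝ) ^ 2 := by exact_mod_cast h
    rw [← abs_of_nonneg (show 0 ≤ 2 * s by positivity), ← sq_le_sq, mul_pow, hs2]
    linarith
  have key : ∀ j, s ^ j ≤ |(lucasU t q (j + 1) : ℝ)| ∧
      s * |(lucasU t q (j + 1) : ℝ)| ≤ |(lucasU t q (j + 2) : ℝ)| := fun j => by
    induction j with
    | zero =>
      simp only [lucasU, pow_zero, Int.cast_one, abs_one, mul_one, mul_zero, sub_zero]
      exact ⟨le_rfl, by linarith⟩
    | succ j ih =>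
      obtain ⟨h1, h2⟩ := ih
      refine ⟨?_, ?_⟩
      · rw [pow_succ']
        exact (mul_le_mul_of_nonneg_left h1 hs0).trans h2
      · have e : (lucasU t q (j + 1 + 2) : ℝ) =
            (t : ℝ) * (lucasU t q (j + 2) : ℝ) - (q : ℝ) * (lucasU t q (j + 1) : ℝ) := by
          rw [← Int.cast_mul, ← Int.cast_mul, ← Int.cast_sub]
          rfl
        rw [e]
        refine le_trans ?_ (abs_sub_abs_le_abs_sub _ _)
        rw [abs_mul, abs_mul, abs_of_nonneg hq0, ← hs2]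
        have h3 := mul_le_mul_of_nonneg_left h2 hs0
        have h4 := mul_le_mul_of_nonneg_right ht (abs_nonneg (lucasU t q (j + 2) : ℝ))
        nlinarith
  have h1 := pow_le_pow_left₀ (pow_nonneg hs0 j) (key j).1 2
  rw [← pow_mul, mul_comm, pow_mul, hs2, sq_abs] at h1
  exact_mod_cast h1

/-- The leading terms in the norm. -/
theorem tail_le {t q : ℤ} {s : ℕ} (hs : |t| ≤ (s : ℤ)) (hq : 1 ≤ q) : ∀ k,
    |lucasU t q (2 * k + 1) - (-q) ^ k| * q ≤ tailBound s k * q ^ k ∧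
      |lucasU t q (2 * k + 2) - (k + 1) * t * (-q) ^ k| * q ≤ tailBound s k * q ^ k
  | 0 => by simp [lucasU, tailBound]
  | k + 1 => by
    obtain ⟨h1, h2⟩ := tail_le hs hq k
    obtain ⟨e₁, he₁⟩ : ∃ e, e = lucasU t q (2 * k + 1) - (-q) ^ k := ⟨_, rfl⟩
    obtain ⟨e₂, he₂⟩ : ∃ e, e = lucasU t q (2 * k + 2) - (k + 1) * t * (-q) ^ k := ⟨_, rfl⟩
    obtain ⟨A, hA⟩ : ∃ A : ℤ, A = (tailBound s k : ℤ) := ⟨_, rfl⟩
    rw [← he₁, ← hA] at h1
    rw [← he₂, ← hA] at h2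
    have hA0 : 0 ≤ A := hA ▸ Int.natCast_nonneg _
    have hqk : 0 ≤ q ^ k := pow_nonneg (by omega) k
    have e3 : lucasU t q (2 * (k + 1) + 1) - (-q) ^ (k + 1) =
        t * e₂ + (k + 1) * t ^ 2 * (-q) ^ k + -q * e₁ := by
      rw [show 2 * (k + 1) + 1 = (2 * k + 1) + 2 by ring, lucasU, he₁, he₂]
      ring
    have b3 : |lucasU t q (2 * (k + 1) + 1) - (-q) ^ (k + 1)| * q ≤
        ((s : ℤ) ^ 2 * (k + 1) + ((s : ℤ) + 1) * A) * q ^ (k + 1) := by
      rw [e3]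
      have hstep : |t * e₂| * q ≤ (s : ℤ) * (A * q ^ k) := by
        rw [abs_mul, mul_assoc]
        exact mul_le_mul hs h2 (by positivity) (by positivity)
      have hmid : |((k : ℤ) + 1) * t ^ 2 * (-q) ^ k| ≤ ((k : ℤ) + 1) * (s : ℤ) ^ 2 * q ^ k := by
        rw [abs_mul, abs_mul, abs_pow, abs_pow, abs_neg, abs_of_nonneg (by omega : (0 : ℤ) ≤ q),
          abs_of_nonneg (by positivity : (0 : ℤ) ≤ (k : ℤ) + 1)]
        gcongr
      have hlast : |-q * e₁| ≤ A * q ^ k := by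
        rw [abs_mul, abs_neg, abs_of_nonneg (by omega : (0 : ℤ) ≤ q), mul_comm]
        exact h1
      have hgrow : (s : ℤ) * (A * q ^ k) ≤ (s : ℤ) * A * q ^ (k + 1) := by
        rw [pow_succ, ← mul_assoc, ← mul_assoc]
        exact le_mul_of_one_le_right (by positivity) hq
      calc |t * e₂ + (k + 1) * t ^ 2 * (-q) ^ k + -q * e₁| * q
          ≤ (|t * e₂| + |((k : ℤ) + 1) * t ^ 2 * (-q) ^ k| + |-q * e₁|) * q :=
            mul_le_mul_of_nonneg_right (abs_add_three _ _ _) (by omega)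
        _ = |t * e₂| * q + |((k : ℤ) + 1) * t ^ 2 * (-q) ^ k| * q + |-q * e₁| * q := by ring
        _ ≤ (s : ℤ) * A * q ^ (k + 1) + ((k : ℤ) + 1) * (s : ℤ) ^ 2 * q ^ k * q + A * q ^ k * q :=
            add_le_add_three (hstep.trans hgrow) (mul_le_mul_of_nonneg_right hmid (by omega))
              (mul_le_mul_of_nonneg_right hlast (by omega))
        _ = _ := by ring
    have e4 : lucasU t q (2 * (k + 1) + 2) - ((k + 1 : ℕ) + 1) * t * (-q) ^ (k + 1) =
        t * (lucasU t q (2 * (k + 1) + 1) - (-q) ^ (k + 1)) + -q * e₂ := by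
      rw [lucasU, he₂, show 2 * (k + 1) = 2 * k + 2 by ring]
      push_cast
      ring
    refine ⟨b3.trans (mul_le_mul_of_nonneg_right ?_ (pow_nonneg (by omega) _)), ?_⟩
    · rw [tailBound]
      push_cast
      rw [← hA]
      exact le_mul_of_one_le_left (by positivity) (by omega)
    · rw [e4, tailBound]
      push_cast
      rw [← hA]
      have hlast : |-q * e₂| * q ≤ A * q ^ (k + 1) := by
        rw [abs_mul, abs_neg, abs_of_nonneg (by omega : (0 : ℤ) ≤ q), pow_succ, ← mul_assoc,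
          mul_assoc q, mul_comm q]
        exact mul_le_mul_of_nonneg_right h2 (by omega)
      calc |t * (lucasU t q (2 * (k + 1) + 1) - (-q) ^ (k + 1)) + -q * e₂| * q
          ≤ (|t * (lucasU t q (2 * (k + 1) + 1) - (-q) ^ (k + 1))| + |-q * e₂|) * q :=
            mul_le_mul_of_nonneg_right (abs_add_le _ _) (by omega)
        _ = |t| * (|lucasU t q (2 * (k + 1) + 1) - (-q) ^ (k + 1)| * q) + |-q * e₂| * q := by
            rw [abs_mul]; ring
        _ ≤ (s : ℤ) * (((s : ℤ) ^ 2 * (k + 1) + ((s : ℤ) + 1) * A) * q ^ (k + 1))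
              + A * q ^ (k + 1) :=
            add_le_add (mul_le_mul hs b3 (by positivity) (by positivity)) hlast
        _ ≤ _ := by nlinarith [show (0 : ℤ) ≤ (s : ℤ) ^ 2 * (k + 1) * q ^ (k + 1) by positivity,
              show (0 : ℤ) ≤ (s : ℤ) * A * q ^ (k + 1) by positivity]

/-- A fixed trace and a value bound the norm. -/
theorem norm_le_of_even {t q : ℤ} {k A : ℕ} (hq : 1 ≤ q) (hk : 1 ≤ k)
    (hne : lucasU t q (2 * k + 2) ≠ 0) (hA : |lucasU t q (2 * k + 2)| ≤ (A : ℤ)) :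
    ∃ s ≤ A, q ≤ ((A + tailBound s k : ℕ) : ℤ) := by
  have hdvd : t ∣ lucasU t q (2 * k + 2) := trace_dvd t q (k + 1)
  have ht0 : t ≠ 0 := fun h0 => hne (zero_dvd_iff.1 (h0 ▸ hdvd))
  have hts : |t| ≤ (A : ℤ) :=
    (Int.le_of_dvd (abs_pos.2 hne) ((abs_dvd _ _).2 ((dvd_abs _ _).2 hdvd))).trans hA
  refine ⟨t.natAbs, by rw [Int.abs_eq_natAbs] at hts; omega, ?_⟩
  obtain ⟨-, h2⟩ := tail_le (t := t) (q := q) (s := t.natAbs) (Int.abs_eq_natAbs t).le hq k
  obtain ⟨B, hB⟩ : ∃ B : ℤ, B = (tailBound t.natAbs k : ℤ) := ⟨_, rfl⟩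
  rw [← hB] at h2
  push_cast
  rw [← hB]
  have hqk : q ≤ q ^ k := le_self_pow₀ hq (by omega)
  have hone : 1 ≤ |((k : ℤ) + 1) * t| :=
    Int.one_le_abs (mul_ne_zero (by omega) ht0)
  have hmain : |((k : ℤ) + 1) * t * (-q) ^ k| ≤ |lucasU t q (2 * k + 2)| +
      |lucasU t q (2 * k + 2) - (k + 1) * t * (-q) ^ k| := by
    have := abs_sub_le (((k : ℤ) + 1) * t * (-q) ^ k) (lucasU t q (2 * k + 2)) 0
    rw [sub_zero, sub_zero, abs_sub_comm] at this
    linarith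
  rw [abs_mul _ ((-q) ^ k), abs_pow, abs_neg, abs_of_nonneg (by omega : (0 : ℤ) ≤ q)] at hmain
  have hq0 : 0 < q ^ k := pow_pos (by omega) k
  have h4 : q ^ k ≤ |((k : ℤ) + 1) * t| * q ^ k := le_mul_of_one_le_left hq0.le hone
  have h5 : q ^ k * q ≤ ((A : ℤ) + B) * q ^ k := by
    calc q ^ k * q
        ≤ (|lucasU t q (2 * k + 2)| + |lucasU t q (2 * k + 2) - (k + 1) * t * (-q) ^ k|) * q :=
          mul_le_mul_of_nonneg_right (h4.trans hmain) (by omega)
      _ = |lucasU t q (2 * k + 2)| * q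
            + |lucasU t q (2 * k + 2) - (k + 1) * t * (-q) ^ k| * q := add_mul _ _ _
      _ ≤ (A : ℤ) * q ^ k + B * q ^ k :=
          add_le_add (mul_le_mul hA hqk (by omega) (by positivity)) h2
      _ = _ := by ring
  exact le_of_mul_le_mul_left (h5.trans_eq (mul_comm _ _)) hq0

end FA.TauValues

end
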