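import Fermat.Agent.TauValues.Forms
import Fermat.Agent.TauValues.Exponent
import Fermat.Agent.Root.SummarySuperellipticEffective
import Fermat.Agent.Tau.Mordell
import Fermat.Agent.Tau.ModTwentyFour
import Mathlib.FieldTheory.Separable

/-!
# The values of `τ` at prime powers and at powerful numbers

The index is bounded by `Exponent`; for a given index the norm `p ^ 11` is bounded by the fixed
trace (odd exponents), by `y ^ 2 = x ^ 11 + a` and `y ^ 2 = 5 x ^ 4 + 4 a` (exponents `2` and `4`)
or by the form of `Forms`.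
-/

set_option autoImplicit false

noncomputable section

namespace FA.TauValues

open Polynomial Finset FA.Tau BakerExplicit.EffectiveThueMahler

/-- Bound for the norm in the fixed trace and the form cases. -/
def indexNormBound (A J : ℕ) : ℕ :=
  (∑ r ∈ range (J + 1), A * 2 ^ thueMahlerBound r (2 * r) A) +
    ∑ r ∈ range (J + 1), ∑ s ∈ range (A + 1), (A + tailBound s r)

/-- Bound for the norm in the two hyperelliptic cases. -/
def smallNormBound (A : ℕ) : ℕ :=
  (2 ^ BakerExplicit.Superelliptic.separableBound 11 A 2) ^ 11 +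
    ((2 ^ BakerExplicit.Superelliptic.separableBound 4 (4 * A + 5) 2) ^ 4 +
      3 * (2 ^ BakerExplicit.Superelliptic.separableBound 4 (4 * A + 5) 2) ^ 2 + A)

/-- Bound for the prime powers. -/
def primePowerBound (A : ℕ) : ℕ :=
  (indexNormBound A (indexBound A) + smallNormBound A + 1) ^ indexBound A

/-- Bound for the powerful numbers. -/
def valueBound (A : ℕ) : ℕ := primePowerBound A ^ primePowerBound A

theorem coeff_binomial_le {c a : ℤ} {d A : ℕ} (hc : c.natAbs + a.natAbs ≤ 2 ^ A) (i : ℕ) :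
    ((C c * X ^ d + C a : ℤ[X]).coeff i).natAbs ≤ 2 ^ A := by
  rw [coeff_add, coeff_C_mul_X_pow, coeff_C]
  split_ifs <;> omega

/-- `y ^ 2 = c x ^ d + a`. -/
theorem binomial_bound {c a x y : ℤ} {d A : ℕ} (hc : c ≠ 0) (ha : a ≠ 0) (hd : 3 ≤ d)
    (hA : c.natAbs + a.natAbs ≤ 2 ^ A) (he : y ^ 2 = c * x ^ d + a) :
    x.natAbs < 2 ^ BakerExplicit.Superelliptic.separableBound d A 2 := by
  have hdeg : (C c * X ^ d + C a : ℤ[X]).natDegree = d := by
    rw [natDegree_add_C, natDegree_C_mul_X_pow _ _ hc]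
  have hsep : ((C c * X ^ d + C a : ℤ[X]).map (Int.castRingHom ℚ)).Separable := by
    have hc' : (c : ℚ) ≠ 0 := Int.cast_ne_zero.2 hc
    rw [Polynomial.map_add, Polynomial.map_mul, Polynomial.map_pow, map_C, map_X, map_C,
      eq_intCast, eq_intCast, show C (c : ℚ) * X ^ d + C (a : ℚ) =
        C (c : ℚ) * (X ^ d - C (-(a : ℚ) / c)) by
          rw [mul_sub, ← C_mul, mul_div_cancel₀ _ hc', C_neg, sub_neg_eq_add]]
    refine (separable_X_pow_sub_C _ (Nat.cast_ne_zero.2 (show d ≠ 0 by omega))
      (div_ne_zero (neg_ne_zero.2 (Int.cast_ne_zero.2 ha)) hc')).of_dvd ?_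
    exact (isUnit_C.2 (isUnit_iff_ne_zero.2 hc')).mul_left_dvd.2 dvd_rfl
  exact (BakerExplicit.Baker1969.separable_effective hdeg.le (hdeg.symm ▸ hd) hsep
    (coeff_binomial_le hA) (b := 1) (x := x) (y := y) le_rfl one_ne_zero
    (by simpa using Nat.one_le_two_pow) (by simpa [eval_C] using he)).1

/-- **Prime powers**, for a trace and a prime. -/
theorem prime_power_le {t : ℤ} {p j A : ℕ} (hp : p.Prime) (hj : 2 ≤ j)
    (hne : lucasU t ((p : ℤ) ^ 11) (j + 1) ≠ 0)
    (hA : (lucasU t ((p : ℤ) ^ 11) (j + 1)).natAbs ≤ A) : p ^ j ≤ primePowerBound A := by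
  obtain ⟨q, hq⟩ : ∃ q : ℕ, q = p ^ 11 := ⟨_, rfl⟩
  rw [show ((p : ℤ) ^ 11) = ((q : ℕ) : ℤ) by rw [hq]; push_cast; rfl] at hne hA
  have hpq : p ≤ q := hq ▸ Nat.le_self_pow (by norm_num) p
  have hq2 : 2 ≤ q := hp.two_le.trans hpq
  have hJ : j + 1 ≤ indexBound A :=
    index_le hq2 hne (hA.trans Nat.lt_two_pow_self.le)
  obtain ⟨J, hJdef⟩ : ∃ J, J = indexBound A := ⟨_, rfl⟩
  rw [← hJdef] at hJ
  rw [primePowerBound, ← hJdef]
  obtain ⟨a, ha⟩ : ∃ a, a = lucasU t (q : ℤ) (j + 1) := ⟨_, rfl⟩
  rw [← ha] at hne hA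
  have hab : |lucasU t (q : ℤ) (j + 1)| ≤ (A : ℤ) := by
    rw [← ha, Int.abs_eq_natAbs]; exact_mod_cast hA
  have hbound : q ≤ indexNormBound A J + smallNormBound A := by
    obtain ⟨k, hk | hk⟩ := Nat.even_or_odd' j
    · -- even exponent
      rcases (show k = 1 ∨ k = 2 ∨ 3 ≤ k by omega) with rfl | rfl | hk3
      · have he : t ^ 2 = 1 * (p : ℤ) ^ 11 + a := by
          rw [ha, hk]
          simp only [lucasU, hq]
          push_cast
          ring
        have h1 := binomial_bound (A := A) one_ne_zero hne (by norm_num : 3 ≤ 11)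
          (by have := Nat.lt_two_pow_self (n := A); simp only [Int.natAbs_one]; omega) he
        rw [Int.natAbs_natCast] at h1
        refine le_trans ?_ (le_add_left (Nat.le_add_right _ _))
        rw [hq]
        exact Nat.pow_le_pow_left h1.le 11
      · have he : (2 * (q : ℤ) - 3 * t ^ 2) ^ 2 = 5 * t ^ 4 + 4 * a := by
          rw [ha, hk]
          simp only [lucasU]
          ring
        have hsize : (5 : ℤ).natAbs + (4 * a).natAbs ≤ 2 ^ (4 * A + 5) := by
          have := Nat.lt_two_pow_self (n := 4 * A + 5)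
          omega
        have h1 := binomial_bound (A := 4 * A + 5) (by norm_num) (mul_ne_zero four_ne_zero hne)
          (by norm_num : 3 ≤ 4) hsize he
        refine le_trans ?_ (le_add_left (Nat.le_add_left _ _))
        obtain ⟨T, hT⟩ : ∃ T, T = 2 ^ BakerExplicit.Superelliptic.separableBound 4 (4 * A + 5) 2 :=
          ⟨_, rfl⟩
        rw [← hT] at h1 ⊢
        clear hT
        have h2 : (q : ℤ) ≤ (T : ℤ) ^ 4 + 3 * (T : ℤ) ^ 2 + (A : ℤ) := by
          have htT : |t| ≤ (T : ℤ) := by rw [Int.abs_eq_natAbs]; exact_mod_cast h1.le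
          have ht2 : t ^ 2 ≤ (T : ℤ) ^ 2 := sq_le_sq' (abs_le.1 htT).1 (abs_le.1 htT).2
          have ht4 : t ^ 4 ≤ (T : ℤ) ^ 4 := by nlinarith [sq_nonneg t]
          have hval : (q : ℤ) * ((q : ℤ) - 3 * t ^ 2) + t ^ 4 = a := by
            rw [ha, hk]
            simp only [lucasU]
            ring
          have haA : |a| ≤ (A : ℤ) := ha ▸ hab
          by_contra hlt
          push Not at hlt
          have hge : (T : ℤ) ^ 4 + (A : ℤ) < (q : ℤ) - 3 * t ^ 2 := by linarith
          have hmul : (q : ℤ) - 3 * t ^ 2 ≤ (q : ℤ) * ((q : ℤ) - 3 * t ^ 2) :=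
            le_mul_of_one_le_left (by linarith [pow_nonneg (Int.natCast_nonneg T) 4])
              (by exact_mod_cast (show 1 ≤ q by omega))
          nlinarith [(abs_le.1 haA).2, sq_nonneg (t ^ 2)]
        exact_mod_cast h2
      · have h1 := norm_le_of_form (t := t) (q := (q : ℤ)) (A := A) hk3 (by omega)
          (by rw [← hk, ← ha]; exact hne) (by rw [← hk]; exact hab)
        refine (Int.ofNat_le.1 h1).trans (le_add_right (le_add_right ?_))
        exact single_le_sum (f := fun r => A * 2 ^ thueMahlerBound r (2 * r) A)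
          (fun _ _ => Nat.zero_le _) (mem_range.2 (by omega))
    · -- odd exponent
      obtain ⟨s, hs, h1⟩ := norm_le_of_even (t := t) (q := (q : ℤ)) (k := k) (A := A) (by omega)
        (by omega) (by rw [show 2 * k + 2 = j + 1 by omega, ← ha]; exact hne)
        (by rw [show 2 * k + 2 = j + 1 by omega]; exact hab)
      refine (Int.ofNat_le.1 h1).trans (le_add_right (le_add_left ?_))
      exact (single_le_sum (f := fun s => A + tailBound s k) (fun _ _ => Nat.zero_le _)
        (mem_range.2 (Nat.lt_succ_of_le hs))).trans (single_le_sum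
          (f := fun r => ∑ s ∈ range (A + 1), (A + tailBound s r))
          (fun _ _ => Nat.zero_le _) (mem_range.2 (by omega)))
  exact (Nat.pow_le_pow_left (hpq.trans (hbound.trans (Nat.le_succ _))) j).trans
    (Nat.pow_le_pow_right (Nat.succ_pos _) (by omega))

theorem coeff_prime_pow {p : ℕ} (hp : p.Prime) : ∀ j : ℕ, PowerSeries.coeff (p ^ j) deltaInt =
    lucasU (PowerSeries.coeff p deltaInt) ((p : ℤ) ^ 11) (j + 1)
  | 0 => by rw [pow_zero, coeff_deltaInt_one]; rfl
  | 1 => by simp [lucasU]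
  | j + 2 => by
    rw [coeff_deltaInt_prime_pow hp, coeff_prime_pow hp (j + 1), coeff_prime_pow hp j]
    rfl

/-- The statement at a prime power. -/
theorem tau_prime_power_le {p j A : ℕ} (hp : p.Prime) (hj : 2 ≤ j)
    (hne : PowerSeries.coeff (p ^ j) deltaInt ≠ 0)
    (hA : (PowerSeries.coeff (p ^ j) deltaInt).natAbs ≤ A) : p ^ j ≤ primePowerBound A := by
  rw [coeff_prime_pow hp] at hne hA
  exact prime_power_le hp hj hne hA

/-- The statement at a powerful number. -/
theorem tau_powerful_le {n A : ℕ} (hn : n ≠ 0) (hpow : ∀ p : ℕ, p.Prime → p ∣ n → p ^ 2 ∣ n)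
    (hne : PowerSeries.coeff n deltaInt ≠ 0)
    (hA : (PowerSeries.coeff n deltaInt).natAbs ≤ A) : n ≤ valueBound A := by
  have hmul : PowerSeries.coeff n deltaInt =
      n.factorization.prod fun p k => PowerSeries.coeff (p ^ k) deltaInt :=
    Nat.multiplicative_factorization (fun n => PowerSeries.coeff n deltaInt)
      (fun x y h => coeff_deltaInt_mul h) coeff_deltaInt_one hn
  have hpart : ∀ p ∈ n.primeFactors, p ^ n.factorization p ≤ primePowerBound A := fun p hp => by
    have hp' := Nat.prime_of_mem_primeFactors hp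
    have hj : 2 ≤ n.factorization p :=
      (hp'.pow_dvd_iff_le_factorization hn).1 (hpow p hp' (Nat.dvd_of_mem_primeFactors hp))
    have hdvd : PowerSeries.coeff (p ^ n.factorization p) deltaInt ∣
        PowerSeries.coeff n deltaInt := by
      rw [hmul, Finsupp.prod, Nat.support_factorization]
      exact dvd_prod_of_mem (fun p => PowerSeries.coeff (p ^ n.factorization p) deltaInt) hp
    exact tau_prime_power_le hp' hj (fun h0 => hne (zero_dvd_iff.1 (h0 ▸ hdvd)))
      ((Nat.le_of_dvd (Int.natAbs_pos.2 hne) (Int.natAbs_dvd_natAbs.2 hdvd)).trans hA)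
  rw [valueBound]
  obtain ⟨V, hV⟩ : ∃ V, V = primePowerBound A := ⟨_, rfl⟩
  rw [← hV] at hpart ⊢
  have hV1 : 1 ≤ V := by
    rw [hV, primePowerBound]; exact Nat.one_le_pow _ _ (Nat.succ_pos _)
  calc n = ∏ p ∈ n.primeFactors, p ^ n.factorization p := by
        conv_lhs => rw [← Nat.prod_factorization_pow_eq_self hn]
        rw [Finsupp.prod, Nat.support_factorization]
    _ ≤ ∏ p ∈ n.primeFactors, V := prod_le_prod (fun _ _ => Nat.zero_le _) hpart
    _ = V ^ n.primeFactors.card := prod_const _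
    _ ≤ V ^ V := by
        refine Nat.pow_le_pow_right hV1 ?_
        refine (card_le_card (t := Icc 1 V) fun p hp => ?_).trans (by simp)
        have hp' := Nat.prime_of_mem_primeFactors hp
        exact mem_Icc.2 ⟨hp'.one_le, (Nat.le_self_pow
          (hp'.factorization_pos_of_dvd hn (Nat.dvd_of_mem_primeFactors hp)).ne' p).trans
            (hpart p hp)⟩

/-- **Odd values.** -/
theorem tau_odd_value_le {n A : ℕ} (hodd : Odd (PowerSeries.coeff n deltaInt))
    (hA : (PowerSeries.coeff n deltaInt).natAbs ≤ A) : n ≤ valueBound A := by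
  obtain ⟨hn, m, hm⟩ := (odd_coeff_deltaInt_iff n).1 hodd
  refine tau_powerful_le hn.pos.ne' (fun p hp hd => ?_) (fun h0 => by rw [h0] at hodd; simp at hodd)
    hA
  rw [hm] at hd ⊢
  rcases hp.dvd_mul.1 hd with h | h <;> rw [sq] <;> exact Nat.mul_dvd_mul h h

end FA.TauValues

end
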